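/-
TEAM FF19 -> S19 (+S32), block H [HOPF] (architect helper56).  File 1: definitions.

An "order" is a subalgebra `H ⊆ Map(G, ℚ̄)` over a base ring `R₀ ⊆ ℚ̄` (`ℤ_(l)`, or the ring `O` of
integers of the maximal unramified extension), made of `Γ`-equivariant functions, finite over `R₀`,
separating the points of `G` and stable under the comultiplication `φ ↦ ((x,y) ↦ φ (x+y))`.
OUTPUT of the block: an order over `ℤ_(l)` for `Γ = G_ℚ` is a finite flat cocommutative Hopf algebra
whose `ℚ̄`-points are `G` (`TW56.Flat.IsFlatMod`, literally the conclusion of S19 / of `IsFlatAt`).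
-/
import Mathlib
import Fermat.Agent.TW56.Flat.Defs

set_option autoImplicit false

noncomputable section

namespace Fermat.Agent.FF19.H

open Fermat.Agent.S53 Fermat.Agent.TW56.Flat TensorProduct

/-- `act` is an action of `G_ℚ` on the abelian group `G` by additive maps. -/
structure IsAct {G : Type} [AddCommGroup G] (act : GQ → G → G) : Prop where
  one : ∀ x, act 1 x = x
  mul : ∀ σ τ x, act (σ * τ) x = act σ (act τ x)
  add : ∀ σ x y, act σ (x + y) = act σ x + act σ y

section Ord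

variable (R₀ : Type) [CommRing R₀] [Algebra R₀ Qb] {G : Type} [AddCommGroup G]

/-- `(x,y) ↦ φ (x+y)` lies in the image of `H ⊗ H`. -/
def DeltaIn (H : Subalgebra R₀ (G → Qb)) (φ : G → Qb) : Prop :=
  ∃ (n : ℕ) (a b : Fin n → G → Qb), (∀ i, a i ∈ H) ∧ (∀ i, b i ∈ H) ∧
    ∀ x y, φ (x + y) = ∑ i, a i x * b i y

/-- **orders**. -/
structure IsOrd (act : GQ → G → G) (Γ : Subgroup GQ) (H : Subalgebra R₀ (G → Qb)) : Prop where
  equiv : ∀ φ ∈ H, ∀ σ ∈ Γ, ∀ x, φ (act σ x) = σ (φ x)
  fg : (Subalgebra.toSubmodule H).FG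
  sep : ∀ x y : G, x ≠ y → ∃ φ ∈ H, φ x ≠ φ y
  delta : ∀ φ ∈ H, DeltaIn R₀ H φ

variable {R₀}

/-- evaluation at a point, on a subalgebra of functions. -/
def evH (H : Subalgebra R₀ (G → Qb)) (x : G) : H →ₐ[R₀] Qb :=
  (Pi.evalAlgHom R₀ (fun _ : G => Qb) x).comp H.val

omit [AddCommGroup G] in
@[simp] lemma evH_apply (H : Subalgebra R₀ (G → Qb)) (x : G) (φ : H) :
    evH H x φ = (φ : G → Qb) x := rfl

end Ord

/-- `(G, act)` has an order over `ℤ_(l)` (for the full Galois group). -/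
def HasOrder (l : ℕ) (G : Type) [AddCommGroup G] (act : GQ → G → G) : Prop :=
  ∃ H : Subalgebra (Rp l) (G → Qb), IsOrd (Rp l) act ⊤ H

/-- pull-back of functions, as an algebra homomorphism. -/
def pb (R₀ : Type) [CommRing R₀] [Algebra R₀ Qb] {X Y : Type} (f : X → Y) :
    (Y → Qb) →ₐ[R₀] (X → Qb) :=
  AlgHom.pi (fun x => Pi.evalAlgHom R₀ (fun _ : Y => Qb) (f x))

@[simp] lemma pb_apply (R₀ : Type) [CommRing R₀] [Algebra R₀ Qb] {X Y : Type} (f : X → Y)
    (φ : Y → Qb) (x : X) : pb R₀ f φ x = φ (f x) := rfl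

/-! ### families of functionals that detect a basis -/

section Good

variable (R₀ : Type) [CommRing R₀] [Algebra R₀ Qb]

/-- `M` has a finite `R₀`-basis whose image under `m ↦ (lam s m)_s` is `ℚ̄`-linearly independent. -/
def GoodFam (M : Type) [AddCommGroup M] [Module R₀ M] (S : Type) (lam : S → M →ₗ[R₀] Qb) : Prop :=
  ∃ (ι : Type) (_ : Fintype ι) (b : Module.Basis ι R₀ M),
    LinearIndependent Qb (fun i : ι => fun s : S => lam s (b i))

variable {R₀}

/-- the product family on a tensor product. -/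
def lamT {M M' : Type} [AddCommGroup M] [Module R₀ M] [AddCommGroup M'] [Module R₀ M']
    {S S' : Type} (lam : S → M →ₗ[R₀] Qb) (lam' : S' → M' →ₗ[R₀] Qb) :
    S × S' → (M ⊗[R₀] M') →ₗ[R₀] Qb :=
  fun z => LinearMap.mul' R₀ Qb ∘ₗ TensorProduct.map (lam z.1) (lam' z.2)

end Good

/-! ### the abstract data: an algebra with enough points indexed by a group -/

/-- an `R`-algebra `H` with a family of `Ω`-points indexed by an abelian group `G`, detecting the
elements of `H`, `H ⊗ H`, `H ⊗ (H ⊗ H)`, and such that the group law, the origin and the inverse are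
"defined over `H`". -/
structure PtData (R Ω H G : Type) [CommRing R] [CommRing Ω] [Algebra R Ω] [CommRing H]
    [Algebra R H] [AddCommGroup G] where
  ev : G → (H →ₐ[R] Ω)
  inj0 : Function.Injective (algebraMap R Ω)
  inj1 : ∀ t : H, (∀ x, ev x t = 0) → t = 0
  inj2 : ∀ t : H ⊗[R] H, (∀ x y, Algebra.TensorProduct.productMap (ev x) (ev y) t = 0) → t = 0
  inj3 : ∀ t : H ⊗[R] (H ⊗[R] H), (∀ x y z, Algebra.TensorProduct.productMap (ev x)
    (Algebra.TensorProduct.productMap (ev y) (ev z)) t = 0) → t = 0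
  ex_comul : ∀ φ : H, ∃ t : H ⊗[R] H,
    ∀ x y, Algebra.TensorProduct.productMap (ev x) (ev y) t = ev (x + y) φ
  ex_counit : ∀ φ : H, ∃ r : R, algebraMap R Ω r = ev 0 φ
  ex_anti : ∀ φ : H, ∃ ψ : H, ∀ x, ev x ψ = ev (-x) φ

section Pt

variable {R Ω H G : Type} [CommRing R] [CommRing Ω] [Algebra R Ω] [CommRing H]
    [Algebra R H] [AddCommGroup G]

/-- `Δ` is the comultiplication of `P`. -/
def IsComul (P : PtData R Ω H G) (Δ : H →ₐ[R] H ⊗[R] H) : Prop :=
  ∀ x y, (Algebra.TensorProduct.productMap (P.ev x) (P.ev y)).comp Δ = P.ev (x + y)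

/-- `ε` is the counit of `P`. -/
def IsCounit (P : PtData R Ω H G) (ε : H →ₐ[R] R) : Prop :=
  ∀ φ, algebraMap R Ω (ε φ) = P.ev 0 φ

/-- `S` is the antipode of `P`. -/
def IsAnti (P : PtData R Ω H G) (S : H →ₐ[R] H) : Prop :=
  ∀ x, (P.ev x).comp S = P.ev (-x)

end Pt

end Fermat.Agent.FF19.H

end
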