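/-
TEAM FF19 -> S19 (+S32), block H [HOPF] (architect helper56).  File 2: the packages.
Every `Stmt_*` is one task; dependencies are passed as hypotheses.

P-block : abstract construction of the Hopf algebra from `PtData` (all identities are proved by
          composing with the detecting families `inj1, inj2, inj3`; everything is an identity
          between algebra homomorphisms, use `Algebra.TensorProduct.ext` / `AlgHom.ext`).
C-block : an order gives `PtData`.
K-block : closure properties of orders.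
-/
import Fermat.Agent.FF19.H.Defs

set_option autoImplicit false

noncomputable section

namespace Fermat.Agent.FF19.H

open Fermat.Agent.S53 Fermat.Agent.TW56.Flat TensorProduct

/-! ## P-block -/

/-- **P1.** the comultiplication exists as an algebra homomorphism.
Proof: `Δ φ := (P.ex_comul φ).choose`; additivity, multiplicativity, `Δ 1 = 1`, `Δ (algebraMap r)` by
`P.inj2` (subtract, and use that `productMap (ev x) (ev y)` and `ev (x+y)` are algebra homs). -/
def Stmt_comul : Prop :=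
  ∀ (R Ω H G : Type) [CommRing R] [CommRing Ω] [Algebra R Ω] [CommRing H] [Algebra R H]
    [AddCommGroup G] (P : PtData R Ω H G), ∃ Δ : H →ₐ[R] H ⊗[R] H, IsComul P Δ

/-- **P2.** the counit.  `ε φ := (P.ex_counit φ).choose`, use `P.inj0`. -/
def Stmt_counit : Prop :=
  ∀ (R Ω H G : Type) [CommRing R] [CommRing Ω] [Algebra R Ω] [CommRing H] [Algebra R H]
    [AddCommGroup G] (P : PtData R Ω H G), ∃ ε : H →ₐ[R] R, IsCounit P ε

/-- **P3.** the antipode.  `S φ := (P.ex_anti φ).choose`, use `P.inj1`. -/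
def Stmt_anti : Prop :=
  ∀ (R Ω H G : Type) [CommRing R] [CommRing Ω] [Algebra R Ω] [CommRing H] [Algebra R H]
    [AddCommGroup G] (P : PtData R Ω H G), ∃ S : H →ₐ[R] H, IsAnti P S

/-- **P4.** coassociativity, in the form wanted by `Bialgebra.ofAlgHom`.
Proof: `AlgHom.ext`, then `sub_eq_zero` + `P.inj3`; for `a b c : H →ₐ Ω`:
`(productMap a (productMap b c)).comp (map (.id) Δ) = productMap a ((productMap b c).comp Δ)` and
`(productMap a (productMap b c)).comp assoc.toAlgHom = productMap (productMap a b) c`,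
`(productMap (productMap a b) c).comp (map Δ (.id)) = productMap ((productMap a b).comp Δ) c`
(all three by `Algebra.TensorProduct.ext`); both sides evaluate to `ev (x + y + z)` (`add_assoc`). -/
def Stmt_coassoc : Prop :=
  ∀ (R Ω H G : Type) [CommRing R] [CommRing Ω] [Algebra R Ω] [CommRing H] [Algebra R H]
    [AddCommGroup G] (P : PtData R Ω H G) (Δ : H →ₐ[R] H ⊗[R] H), IsComul P Δ →
    (Algebra.TensorProduct.assoc R R R H H H).toAlgHom.comp
      ((Algebra.TensorProduct.map Δ (.id R H)).comp Δ)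
      = (Algebra.TensorProduct.map (.id R H) Δ).comp Δ

/-- **P5.** the counit identities, in the form wanted by `Bialgebra.ofAlgHom`.
Proof: apply the injective `lid` (resp. `rid`) and then `P.inj1`:
`ev x (lid (map ε id (Δ φ))) = productMap (ev 0) (ev x) (Δ φ) = ev (0 + x) φ`
(`(ev x).comp (lid.toAlgHom.comp (map ε id)) = productMap ((Algebra.ofId R Ω).comp ε) (ev x)` by
`Algebra.TensorProduct.ext`, and `(Algebra.ofId R Ω).comp ε = ev 0` by `IsCounit`). -/
def Stmt_counitId : Prop :=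
  ∀ (R Ω H G : Type) [CommRing R] [CommRing Ω] [Algebra R Ω] [CommRing H] [Algebra R H]
    [AddCommGroup G] (P : PtData R Ω H G) (Δ : H →ₐ[R] H ⊗[R] H) (ε : H →ₐ[R] R),
    IsComul P Δ → IsCounit P ε →
    ((Algebra.TensorProduct.map ε (.id R H)).comp Δ = (Algebra.TensorProduct.lid R H).symm) ∧
    ((Algebra.TensorProduct.map (.id R H) ε).comp Δ = (Algebra.TensorProduct.rid R R H).symm)

/-- **P6.** the antipode identities, in the form of the fields of `HopfAlgebra`.
Proof: `LinearMap.ext`, `P.inj1`: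
`ev x (mul' (S ⊗ id (Δ φ))) = productMap ((ev x).comp S) (ev x) (Δ φ) = ev (-x + x) φ = ev 0 φ`. -/
def Stmt_antiId : Prop :=
  ∀ (R Ω H G : Type) [CommRing R] [CommRing Ω] [Algebra R Ω] [CommRing H] [Algebra R H]
    [AddCommGroup G] (P : PtData R Ω H G) (Δ : H →ₐ[R] H ⊗[R] H) (ε : H →ₐ[R] R)
    (S : H →ₐ[R] H), IsComul P Δ → IsCounit P ε → IsAnti P S →
    (LinearMap.mul' R H ∘ₗ S.toLinearMap.rTensor H ∘ₗ Δ.toLinearMap
      = Algebra.linearMap R H ∘ₗ ε.toLinearMap) ∧
    (LinearMap.mul' R H ∘ₗ S.toLinearMap.lTensor H ∘ₗ Δ.toLinearMap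
      = Algebra.linearMap R H ∘ₗ ε.toLinearMap)

/-- **P7.** cocommutativity (`P.inj2` and `add_comm`). -/
def Stmt_cocomm : Prop :=
  ∀ (R Ω H G : Type) [CommRing R] [CommRing Ω] [Algebra R Ω] [CommRing H] [Algebra R H]
    [AddCommGroup G] (P : PtData R Ω H G) (Δ : H →ₐ[R] H ⊗[R] H), IsComul P Δ →
    (TensorProduct.comm R H H).toLinearMap ∘ₗ Δ.toLinearMap = Δ.toLinearMap

/-- **P8 (assembly of the P-block).**  `PtData` over `ℤ_(l)` with values in `ℚ̄`, finite flat, whose
points are exactly the `ev x`, compatibly with Galois: the conclusion of S19.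
Proof: `letI : Bialgebra := Bialgebra.ofAlgHom Δ ε ..`, `letI : HopfAlgebra := { antipode := S, .. }`,
`e := (Equiv.ofBijective (fun x => WithConv.toConv (P.ev x)) _).symm`;
`toConv (ev x) * toConv (ev y) = toConv (ev (x+y))` is `AlgHom.convMul_def` + `IsComul`
(`(lmul' R).comp (map f g) = productMap f g` is `rfl`/`Algebra.TensorProduct.productMap` unfolds). -/
def Stmt_hopfAbs : Prop :=
  ∀ (l : ℕ) (H G : Type) [CommRing H] [Algebra (Rp l) H] [AddCommGroup G] (act : GQ → G → G)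
    (P : PtData (Rp l) Qb H G), Module.Finite (Rp l) H → Module.Flat (Rp l) H →
    (∀ f : H →ₐ[Rp l] Qb, ∃ x, f = P.ev x) → (∀ x y, P.ev x = P.ev y → x = y) →
    (∀ (σ : GQ) (x : G) (φ : H), P.ev (act σ x) φ = σ (P.ev x φ)) → IsFlatMod l G act

/-! ## C-block -/

/-- **C1.** `ℤ_(l)` is a PID, integrally closed in `ℚ`.
(`TW56.Flat.Free_valSub` (file TW56/Flat/Free.lean) shows that it is a valuation subring; every
nonzero element is `l^n * unit`.) -/
def Stmt_rp : Prop :=
  ∀ (l : ℕ) [Fact l.Prime], IsPrincipalIdealRing (Rp l) ∧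
    (∀ x : ℚ, IsIntegral (Rp l) x → x ∈ Rp l) ∧
    Function.Injective (algebraMap (Rp l) Qb)

/-- **C2.** Galois descent of linear relations: a non trivial `ℚ̄`-linear relation between
`Γ`-equivariant functions gives a non trivial relation with `Γ`-invariant coefficients.
Proof: take a non trivial relation with support of minimal cardinality, normalised by `c i₀ = 1`;
applying `σ ∈ Γ` (`σ (∑ c i * v i x) = ∑ σ (c i) * v i (act σ x)`, and `act σ` is onto) gives the
relation `σ ∘ c`; the difference has smaller support, so it is `0`. -/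
def Stmt_indep : Prop :=
  ∀ (X : Type) (act : GQ → X → X) (Γ : Subgroup GQ), (∀ σ ∈ Γ, Function.Surjective (act σ)) →
    ∀ (ι : Type) [Fintype ι] (v : ι → X → Qb), (∀ i, ∀ σ ∈ Γ, ∀ x, v i (act σ x) = σ (v i x)) →
    ∀ c : ι → Qb, c ≠ 0 → (∑ i, c i • v i = 0) →
    ∃ d : ι → Qb, d ≠ 0 ∧ (∀ i, ∀ σ ∈ Γ, σ (d i) = d i) ∧ ∑ i, d i • v i = 0

/-- **C3.** finite Stone-Weierstrass: a subalgebra of `Map(X, F)` (`X` finite, `F` a field) which
separates the points is everything (indicator of `x` = `∏_{y ≠ x} (φ_y - φ_y y)/(φ_y x - φ_y y)`). -/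
def Stmt_sw : Prop :=
  ∀ (X : Type) [Finite X] (F : Type) [Field F] (B : Subalgebra F (X → F)),
    (∀ x y, x ≠ y → ∃ φ ∈ B, φ x ≠ φ y) → B = ⊤

/-- **C4 (the key lemma).** an order over a PID `R₀ ⊆ ℚ̄` whose fraction field is `ℚ̄^Γ` has an
`R₀`-basis indexed by `G` which is a `ℚ̄`-basis of `Map(G, ℚ̄)`.
Proof: `H` is finite and torsion free over the PID, so free (`Module.free_of_finite_type_torsion_free'`
/ `Module.Free.chooseBasis`), basis `b : ι → H`.  `R₀`-independent ⟹ independent over `ℚ̄^Γ` (clear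
denominators) ⟹ `ℚ̄`-independent (C2).  The `ℚ̄`-span of `H` is a `ℚ̄`-subalgebra separating the
points, so it is `⊤` (C3).  Hence `#ι = dim Map(G,ℚ̄) = #G`: reindex. -/
def Stmt_basis : Prop :=
  ∀ (R₀ : Type) [CommRing R₀] [IsDomain R₀] [IsPrincipalIdealRing R₀] [Algebra R₀ Qb],
    Function.Injective (algebraMap R₀ Qb) → ∀ (Γ : Subgroup GQ),
    (∀ c : Qb, (∀ σ ∈ Γ, σ c = c) →
      ∃ a b : R₀, b ≠ 0 ∧ c * algebraMap R₀ Qb b = algebraMap R₀ Qb a) →
    ∀ (G : Type) [AddCommGroup G] [Finite G] (act : GQ → G → G) (H : Subalgebra R₀ (G → Qb)),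
    IsAct act → IsOrd R₀ act Γ H →
    ∃ b : Module.Basis G R₀ H, LinearIndependent Qb (fun i : G => ((b i : H) : G → Qb))

/-- **C5.** good families are stable under tensor products (`Module.Basis.tensorProduct`;
if `∑ c (i,j) u i s * u' j s' = 0` for all `s, s'` then, `s'` fixed, `∑_j c (i,j) u' j s' = 0`
for all `i`, so `c = 0`). -/
def Stmt_goodTensor : Prop :=
  ∀ (R₀ : Type) [CommRing R₀] [Algebra R₀ Qb] (M M' : Type) [AddCommGroup M] [Module R₀ M]
    [AddCommGroup M'] [Module R₀ M'] (S S' : Type) (lam : S → M →ₗ[R₀] Qb)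
    (lam' : S' → M' →ₗ[R₀] Qb), GoodFam R₀ M S lam → GoodFam R₀ M' S' lam' →
    GoodFam R₀ (M ⊗[R₀] M') (S × S') (lamT lam lam')

/-- **C6.** a good family detects the elements. -/
def Stmt_goodInj : Prop :=
  ∀ (R₀ : Type) [CommRing R₀] [Algebra R₀ Qb], Function.Injective (algebraMap R₀ Qb) →
    ∀ (M : Type) [AddCommGroup M] [Module R₀ M] (S : Type) (lam : S → M →ₗ[R₀] Qb),
    GoodFam R₀ M S lam → ∀ t : M, (∀ s, lam s t = 0) → t = 0

/-- **C7.** an order is stable under `φ ↦ φ ∘ [m]` (`m ≥ 1`), in particular under `φ ↦ φ ∘ neg`.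
Proof: induction on `m ≥ 1`: `φ ((m+1) x) = φ (m x + x) = ∑ a i (m x) * b i x`.
`-x = (Nat.card G - 1) • x`; if `Nat.card G = 1` then `-x = x`. -/
def Stmt_negIn : Prop :=
  ∀ (R₀ : Type) [CommRing R₀] [Algebra R₀ Qb] (G : Type) [AddCommGroup G] [Finite G]
    (H : Subalgebra R₀ (G → Qb)), (∀ φ ∈ H, DeltaIn R₀ H φ) →
    ∀ φ ∈ H, (fun x => φ (-x)) ∈ H

/-- **C8.** the value at the origin of an element of an order over `ℤ_(l)` lies in `ℤ_(l)`.
Proof: `φ 0` is fixed by `G_ℚ` (`act σ 0 = 0`), so it is rational (`IsGalois ℚ ℚ̄`: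
`IsGalois.mem_bot_iff_fixed` / `InfiniteGalois.fixedField_bot`‑type lemma); `φ` is integral over
`ℤ_(l)` (`H` finite), so `φ 0` is (`IsIntegral.map (Pi.evalAlgHom ..)`); C1. -/
def Stmt_zeroIn : Prop :=
  ∀ (l : ℕ) [Fact l.Prime] (G : Type) [AddCommGroup G] (act : GQ → G → G)
    (H : Subalgebra (Rp l) (G → Qb)), IsAct act → IsOrd (Rp l) act ⊤ H →
    ∀ φ ∈ H, ∃ r : Rp l, algebraMap (Rp l) Qb r = φ 0

/-- **C9.** the points of an order are the evaluations.
Proof: the `R₀`-algebra homs `H → ℚ̄` are `ℚ̄`-linearly independent functions on `H`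
(`linearIndependent_monoidHom`), they are determined by their values on the basis `b`
(`f ↦ (f (b i))_i ∈ ℚ̄^G` is linear and injective on their span), so there are at most `#G` of them;
the `evH H x` are `#G` distinct ones.  (Or: extend `f` to a `ℚ̄`-algebra hom `Map(G,ℚ̄) → ℚ̄`.) -/
def Stmt_points : Prop :=
  ∀ (R₀ : Type) [CommRing R₀] [Algebra R₀ Qb] (G : Type) [AddCommGroup G] [Finite G]
    (H : Subalgebra R₀ (G → Qb)) (b : Module.Basis G R₀ H),
    LinearIndependent Qb (fun i : G => ((b i : H) : G → Qb)) →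
    ∀ f : H →ₐ[R₀] Qb, ∃ x, f = evH H x

/-- **C10.** an order over `ℤ_(l)` gives `PtData` with `ev = evH H`.
(`inj1` is trivial; `inj2`, `inj3` from C4, C5, C6:
`productMap (evH x) (evH y) t = lamT (fun x => (evH H x).toLinearMap) _ (x,y) t` by
`TensorProduct.induction_on`; `ex_comul` : `t = ∑ a i ⊗ₜ b i`; C7; C8.) -/
def Stmt_ptData : Prop :=
  ∀ (l : ℕ) [Fact l.Prime] (G : Type) [AddCommGroup G] [Finite G] (act : GQ → G → G)
    (H : Subalgebra (Rp l) (G → Qb)), IsAct act → IsOrd (Rp l) act ⊤ H →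
    ∃ P : PtData (Rp l) Qb H G, P.ev = evH H

/-- **OUTPUT OF THE BLOCK.** -/
def Stmt_Hopf : Prop :=
  ∀ (l : ℕ) [Fact l.Prime] (G : Type) [AddCommGroup G] [Finite G] (act : GQ → G → G),
    IsAct act → HasOrder l G act → IsFlatMod l G act

/-! ## K-block : closure properties -/

/-- **K1.** the functions `φ` with `DeltaIn R₀ H φ` form a subalgebra; so `Δ`-stability may be
checked on algebra generators. -/
def Stmt_deltaAdjoin : Prop :=
  ∀ (R₀ : Type) [CommRing R₀] [Algebra R₀ Qb] (G : Type) [AddCommGroup G] (s : Set (G → Qb)),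
    (∀ φ ∈ s, DeltaIn R₀ (Algebra.adjoin R₀ s) φ) →
    ∀ φ ∈ Algebra.adjoin R₀ s, DeltaIn R₀ (Algebra.adjoin R₀ s) φ

/-- **K2.** orders restrict along injective equivariant homomorphisms (`H' = H.map (pb R₀ j)`). -/
def Stmt_sub : Prop :=
  ∀ (R₀ : Type) [CommRing R₀] [Algebra R₀ Qb] (Γ : Subgroup GQ) (G G' : Type) [AddCommGroup G]
    [AddCommGroup G'] (act : GQ → G → G) (act' : GQ → G' → G') (j : G' →+ G),
    Function.Injective j → (∀ σ ∈ Γ, ∀ x, j (act' σ x) = act σ (j x)) →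
    ∀ H : Subalgebra R₀ (G → Qb), IsOrd R₀ act Γ H → IsOrd R₀ act' Γ (H.map (pb R₀ j))

/-- **K3.** products (`H = H₁.map (pb fst) ⊔ H₂.map (pb snd)`; finite: `Subalgebra.finite_sup`‑type
lemma; `Δ`-stability: K1‑type argument, `H₁.map _ ⊔ H₂.map _ = adjoin (.. ∪ ..)`). -/
def Stmt_prod : Prop :=
  ∀ (R₀ : Type) [CommRing R₀] [Algebra R₀ Qb] (Γ : Subgroup GQ) (G₁ G₂ : Type) [AddCommGroup G₁]
    [AddCommGroup G₂] (act₁ : GQ → G₁ → G₁) (act₂ : GQ → G₂ → G₂)
    (H₁ : Subalgebra R₀ (G₁ → Qb)) (H₂ : Subalgebra R₀ (G₂ → Qb)),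
    IsOrd R₀ act₁ Γ H₁ → IsOrd R₀ act₂ Γ H₂ →
    IsOrd R₀ (fun σ (z : G₁ × G₂) => (act₁ σ z.1, act₂ σ z.2)) Γ
      (H₁.map (pb R₀ Prod.fst) ⊔ H₂.map (pb R₀ Prod.snd))

/-- **K4.** quotients: `H'' = H.comap (pb π) = {ψ | ψ ∘ π ∈ H}`.
Proof. equiv: `π` onto.  fg: `pb π` is injective, `H''` is isomorphic to a submodule of the
noetherian module `H`.
KEY: let `Zt` = the integral closure of `ℤ_(l)` in `ℚ̄`, `b` the basis of C4.  If `ψ : G → ℚ̄` is
`G_ℚ`-equivariant and `ψ = ∑ c i • b i` with `c i ∈ Zt`, then `σ (c i) = c i` (uniqueness of the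
coefficients), so `c i ∈ ℚ ∩ Zt = ℤ_(l)` (C1) and `ψ ∈ H`.   (*)
sep: `G' = ker π`.  For `φ ∈ H` and `k`, `s_k x :=` the `k`-th elementary symmetric function of
`(φ (x + g'))_{g' ∈ G'}`: it is `G'`-invariant, equivariant (`G'` is Galois stable), and a polynomial
in the functions `x ↦ φ (x + g') = ∑ a i x * b i g'`, which are `Zt`-combinations of elements of `H`
(`b i g'` is integral); by (*) `s_k ∈ H`, so it descends to `H''`.  If `π x ≠ π y` were not separated
then for every `φ ∈ H`: `φ x ∈ {φ (y + g')}`, i.e. `H = ⋃_{g'} ker (φ ↦ φ x - φ (y + g'))`, a finite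
union of subgroups of infinite index (the quotient embeds in `ℚ̄`, torsion free, and is non zero by
`sep`): impossible (`AddSubgroup.exists_finiteIndex_of_leftCoset_cover`, B.H. Neumann; or
`Subspace.top_mem_of_biUnion_eq_univ` after tensoring with `ℚ`).
delta: for `ψ ∈ H''`, `(x,y) ↦ ψ (π x + π y)` is `∑ r (i,j) b i x * b j y` with `r (i,j) ∈ ℤ_(l)`; it is
invariant under `G' × G'`.  Take an `ℤ_(l)`-basis `b''` of `H''` (it is saturated in `H`: if
`l • φ ∈ H'' ∘ π` then `φ` is `G'`-invariant), extend it to a basis of `H`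
(`H / H''` is torsion free, hence free: `Submodule.exists_isCompl`‑type splitting); expand in this basis and
use that the `G'`-invariant functions are exactly the `ℚ̄`-span of `b''` (dimension count: `H''` is
an order‑like algebra separating the points of `G''`, so C3 applies). -/
def Stmt_quot : Prop :=
  ∀ (l : ℕ) [Fact l.Prime] (G G'' : Type) [AddCommGroup G] [Finite G] [AddCommGroup G'']
    (act : GQ → G → G) (act'' : GQ → G'' → G'') (π : G →+ G''), IsAct act → IsAct act'' →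
    Function.Surjective π → (∀ σ x, π (act σ x) = act'' σ (π x)) →
    ∀ H : Subalgebra (Rp l) (G → Qb), IsOrd (Rp l) act ⊤ H →
    IsOrd (Rp l) act'' ⊤ (H.comap (pb (Rp l) π))

/-- **K4a.** the `sep` part of K4 (see the docstring of `Stmt_quot`). -/
def Stmt_quotSep : Prop :=
  ∀ (l : ℕ) [Fact l.Prime] (G G'' : Type) [AddCommGroup G] [Finite G] [AddCommGroup G'']
    (act : GQ → G → G) (act'' : GQ → G'' → G'') (π : G →+ G''), IsAct act → IsAct act'' →
    Function.Surjective π → (∀ σ x, π (act σ x) = act'' σ (π x)) →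
    ∀ H : Subalgebra (Rp l) (G → Qb), IsOrd (Rp l) act ⊤ H →
    ∀ x y : G'', x ≠ y → ∃ ψ ∈ H.comap (pb (Rp l) π), ψ x ≠ ψ y

/-- **K4b.** the `delta` part of K4, given the `sep` part (see the docstring of `Stmt_quot`). -/
def Stmt_quotDelta : Prop :=
  ∀ (l : ℕ) [Fact l.Prime] (G G'' : Type) [AddCommGroup G] [Finite G] [AddCommGroup G'']
    (act : GQ → G → G) (act'' : GQ → G'' → G'') (π : G →+ G''), IsAct act → IsAct act'' →
    Function.Surjective π → (∀ σ x, π (act σ x) = act'' σ (π x)) →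
    ∀ H : Subalgebra (Rp l) (G → Qb), IsOrd (Rp l) act ⊤ H →
    (∀ x y : G'', x ≠ y → ∃ ψ ∈ H.comap (pb (Rp l) π), ψ x ≠ ψ y) →
    ∀ ψ ∈ H.comap (pb (Rp l) π), DeltaIn (Rp l) (H.comap (pb (Rp l) π)) ψ

end Fermat.Agent.FF19.H

end
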